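import Mathlib
import Fermat.Prelude.Def_EllipticCurve_FrobeniusTrace

/-!
# Existence of Frobenius elements in `Gal(Qbar/Q)` for valuation subrings of `Qbar`
-/

set_option autoImplicit false
set_option linter.style.haveILetI false

namespace Fermat.Agent.Lib.Frobenius

open Polynomial

local notation "Qbar" => AlgebraicClosure ℚ
local notation "GQ" => (AlgebraicClosure ℚ ≃ₐ[ℚ] AlgebraicClosure ℚ)
local notation "Zbar" => integralClosure ℤ (AlgebraicClosure ℚ)

instance instIsAlgClosureQbar : IsAlgClosure ℚ Qbar := @AlgebraicClosure.instIsAlgClosure ℚ _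

/-- Integral elements lie in every valuation subring. -/
lemma mem_of_isIntegral (A : ValuationSubring Qbar) {x : Qbar} (hx : IsIntegral ℤ x) : x ∈ A := by
  have h1 : IsIntegral A x := hx.tower_top
  obtain ⟨y, hy⟩ := (IsIntegrallyClosed.isIntegral_iff (R := A) (K := Qbar)).mp h1
  rw [← hy]
  exact y.2

lemma mul_mem_nonunits (A : ValuationSubring Qbar) {a x : Qbar} (ha : a ∈ A.nonunits)
    (hx : x ∈ A) : a * x ∈ A.nonunits := by
  rw [ValuationSubring.mem_nonunits_iff] at ha ⊢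
  rw [← ValuationSubring.valuation_le_one_iff] at hx
  rw [map_mul]
  exact mul_lt_one_of_lt_of_le ha hx

lemma one_notMem_nonunits (A : ValuationSubring Qbar) : (1 : Qbar) ∉ A.nonunits := by
  rw [ValuationSubring.mem_nonunits_iff, map_one]
  exact lt_irrefl _

lemma exists_mul_isIntegral_aux (A : ValuationSubring Qbar) (x : Qbar) (hx : x ∈ A) (n : ℕ) :
    ∀ f : Zbar[X], f.natDegree ≤ n → aeval x f = 0 →
      (∃ i, ((f.coeff i : Zbar) : Qbar) ∉ A.nonunits) →
      ∃ s : Zbar, (s : Qbar) ∉ A.nonunits ∧ IsIntegral ℤ ((s : Qbar) * x) := by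
  induction n with
  | zero =>
    intro f hf h0 ⟨i, hi⟩
    exfalso
    rw [Polynomial.eq_C_of_natDegree_le_zero hf] at h0
    simp only [aeval_C] at h0
    have h00 : f.coeff 0 = 0 := by
      apply Subtype.ext
      simpa using h0
    have : f = 0 := by
      rw [Polynomial.eq_C_of_natDegree_le_zero hf, h00, C_0]
    apply hi
    rw [this]
    simp only [coeff_zero, ZeroMemClass.coe_zero]
    exact A.nonunits.zero_mem
  | succ n ih =>
    intro f hf h0 ⟨i, hi⟩
    by_cases hdeg : f.natDegree ≤ n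
    · exact ih f hdeg h0 ⟨i, hi⟩
    have hdeg' : f.natDegree = n + 1 := by omega
    have hint : IsIntegral Zbar (f.leadingCoeff • x) := isIntegral_leadingCoeff_smul f x h0
    have hint' : IsIntegral ℤ ((f.leadingCoeff : Qbar) * x) := by
      have := isIntegral_trans (R := ℤ) (A := Zbar) _ hint
      simpa [Algebra.smul_def] using this
    by_cases ha : (f.leadingCoeff : Qbar) ∈ A.nonunits
    · -- reduce the degree
      let b : Zbar := ⟨(f.leadingCoeff : Qbar) * x, hint'⟩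
      have hb : (b : Qbar) ∈ A.nonunits := mul_mem_nonunits A ha hx
      refine ih (f.eraseLead + C b * X ^ n) ?_ ?_ ?_
      · refine (natDegree_add_le _ _).trans (max_le ?_ (natDegree_C_mul_X_pow_le _ _))
        have := eraseLead_natDegree_le f
        omega
      · have h1 : aeval x f.eraseLead + (f.leadingCoeff : Qbar) * x ^ (n + 1) = 0 := by
          conv_rhs => rw [← h0, ← eraseLead_add_C_mul_X_pow f, hdeg']
          simp
        have h2 : aeval x (C b * X ^ n : Zbar[X]) = (f.leadingCoeff : Qbar) * x * x ^ n := by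
          rw [map_mul, aeval_C, map_pow, aeval_X]
          rfl
        rw [map_add, h2]
        linear_combination h1
      · have hi' : i ≠ f.natDegree := by
          rintro rfl
          exact hi ha
        refine ⟨i, fun hmem => hi ?_⟩
        rw [coeff_add, eraseLead_coeff_of_ne _ hi', coeff_C_mul, coeff_X_pow] at hmem
        by_cases hin : i = n
        · simp only [hin, if_true, mul_one] at hmem
          have := A.nonunits.sub_mem hmem hb
          simpa [hin] using this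
        · simpa [hin] using hmem
    · exact ⟨f.leadingCoeff, ha, hint'⟩

lemma intCast_mem' (A : ValuationSubring Qbar) (c : ℤ) : (c : Qbar) ∈ A :=
  _root_.intCast_mem A c

lemma intCast_notMem_nonunits (A : ValuationSubring Qbar) {ℓ : ℕ} (hℓ : ℓ.Prime)
    (hA : A.LiesOverPrime ℓ) {c : ℤ} (hc : ¬ (ℓ : ℤ) ∣ c) : (c : Qbar) ∉ A.nonunits := by
  intro hmem
  have hcop : IsCoprime (ℓ : ℤ) c :=
    (Nat.prime_iff_prime_int.mp hℓ).irreducible.coprime_iff_not_dvd.mpr hc
  obtain ⟨u, v, huv⟩ := hcop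
  apply one_notMem_nonunits A
  have h1 : ((u : Qbar) * (ℓ : Qbar) + (v : Qbar) * (c : Qbar)) = 1 := by
    exact_mod_cast congrArg (Int.cast : ℤ → Qbar) huv
  rw [← h1]
  refine A.nonunits.add_mem ?_ ?_
  · rw [mul_comm]; exact mul_mem_nonunits A hA (intCast_mem' A u)
  · rw [mul_comm]; exact mul_mem_nonunits A hmem (intCast_mem' A v)

/-- Every element of a valuation subring of `Qbar` over a prime `ℓ` is a fraction `b / s` of
algebraic integers with `s` a unit of the valuation subring. -/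
lemma exists_fraction (A : ValuationSubring Qbar) {ℓ : ℕ} (hℓ : ℓ.Prime)
    (hA : A.LiesOverPrime ℓ) {x : Qbar} (hx : x ∈ A) :
    ∃ s b : Zbar, (s : Qbar) ∉ A.nonunits ∧ (s : Qbar) * x = b := by
  have halg : IsAlgebraic ℤ x := by
    have : IsAlgebraic ℚ x := Algebra.IsAlgebraic.isAlgebraic x
    exact (IsFractionRing.isAlgebraic_iff ℤ ℚ Qbar).mpr this
  obtain ⟨p, hp0, hpx⟩ := halg
  have hq : aeval x p.primPart = 0 := Polynomial.aeval_primPart_eq_zero hp0 hpx
  have hprim := p.isPrimitive_primPart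
  have : ∃ i, ¬ (ℓ : ℤ) ∣ p.primPart.coeff i := by
    by_contra hcon
    push Not at hcon
    have := hprim (ℓ : ℤ) ((Polynomial.C_dvd_iff_dvd_coeff _ _).mpr hcon)
    exact (Nat.prime_iff_prime_int.mp hℓ).not_isUnit this
  obtain ⟨i, hi⟩ := this
  obtain ⟨s, hs, hsx⟩ := exists_mul_isIntegral_aux A x hx _
    (p.primPart.map (algebraMap ℤ Zbar)) le_rfl (by rw [aeval_map_algebraMap]; exact hq)
    ⟨i, by simpa using intCast_notMem_nonunits A hℓ hA hi⟩
  exact ⟨s, ⟨_, hsx⟩, hs, rfl⟩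

lemma valuation_eq_one (A : ValuationSubring Qbar) {s : Qbar} (hs : s ∈ A)
    (hs' : s ∉ A.nonunits) : A.valuation s = 1 := by
  rw [ValuationSubring.mem_nonunits_iff] at hs'
  rw [← ValuationSubring.valuation_le_one_iff] at hs
  exact le_antisymm hs (not_lt.mp hs')

/-- An automorphism preserving the prime of `Zbar` cut out by `A` preserves `A`. -/
lemma map_mem_of_forall (A : ValuationSubring Qbar) {ℓ : ℕ} (hℓ : ℓ.Prime)
    (hA : A.LiesOverPrime ℓ) (τ : GQ)
    (hτ : ∀ b : Qbar, IsIntegral ℤ b → (τ b ∈ A.nonunits ↔ b ∈ A.nonunits))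
    {x : Qbar} (hx : x ∈ A) : τ x ∈ A := by
  obtain ⟨s, b, hs, hsx⟩ := exists_fraction A hℓ hA hx
  have hτs : IsIntegral ℤ (τ (s : Qbar)) := s.2.map τ
  have hτb : IsIntegral ℤ (τ (b : Qbar)) := b.2.map τ
  have h1 : A.valuation (τ (s : Qbar)) = 1 :=
    valuation_eq_one A (mem_of_isIntegral A hτs) (fun h => hs ((hτ _ s.2).mp h))
  have h2 : τ (s : Qbar) * τ x = τ (b : Qbar) := by rw [← map_mul, hsx]
  rw [← ValuationSubring.valuation_le_one_iff]
  have h3 := congrArg A.valuation h2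
  rw [map_mul, h1, one_mul] at h3
  rw [h3, ValuationSubring.valuation_le_one_iff]
  exact mem_of_isIntegral A hτb

/-- The inclusion of the ring of all algebraic integers in a valuation subring. -/
noncomputable def incl (A : ValuationSubring Qbar) : Zbar →+* A where
  toFun b := ⟨b, mem_of_isIntegral A b.2⟩
  map_one' := rfl
  map_mul' _ _ := rfl
  map_zero' := rfl
  map_add' _ _ := rfl

lemma isInvariant_Zbar : Algebra.IsInvariant ℤ Zbar GQ := by
  refine ⟨fun b hb => ?_⟩
  have h1 : (b : Qbar) ∈ IntermediateField.fixedField (⊤ : Subgroup GQ) := by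
    rintro ⟨g, -⟩
    exact congrArg Subtype.val (hb g)
  rw [InfiniteGalois.fixedField_bot, IntermediateField.mem_bot] at h1
  obtain ⟨q, hq⟩ := h1
  have h2 : IsIntegral ℤ q := by
    have := b.2
    rw [← hq] at this
    exact (isIntegral_algebraMap_iff (algebraMap ℚ Qbar).injective).mp this
  obtain ⟨m, hm⟩ := IsIntegrallyClosed.isIntegral_iff.mp h2
  refine ⟨m, Subtype.ext ?_⟩
  rw [← hq, ← hm]
  simp

/-- There is an element of `Gal(Qbar/Q)` acting as `x ↦ x ^ ℓ` on algebraic integers modulo the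
maximal ideal of `A`. -/
lemma exists_frob_on_integers (A : ValuationSubring Qbar) {ℓ : ℕ} (hℓ : ℓ.Prime)
    (hA : A.LiesOverPrime ℓ) :
    ∃ σ : GQ, ∀ b : Qbar, IsIntegral ℤ b → σ b - b ^ ℓ ∈ A.nonunits := by
  classical
  letI : TopologicalSpace Zbar := ⊥
  haveI : DiscreteTopology Zbar := ⟨rfl⟩
  haveI : ContinuousSMul GQ Zbar := by
    rw [continuousSMul_iff_stabilizer_isOpen]
    intro b
    convert stabilizer_isOpen_of_isIntegral (K := ℚ) (L := Qbar) (b : Qbar) using 2
    ext g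
    simp [MulAction.mem_stabilizer_iff, Subtype.ext_iff]
  haveI : Algebra.IsInvariant ℤ Zbar GQ := isInvariant_Zbar
  let Q : Ideal Zbar := (IsLocalRing.maximalIdeal A).comap (incl A)
  have hQmem : ∀ b : Zbar, b ∈ Q ↔ (b : Qbar) ∈ A.nonunits := fun b => by
    rw [Ideal.mem_comap, ← ValuationSubring.coe_mem_nonunits_iff]
    rfl
  haveI hQprime : Q.IsPrime := Ideal.comap_isPrime _ _
  let P : Ideal ℤ := Ideal.span {(ℓ : ℤ)}
  haveI hPmax : P.IsMaximal :=
    PrincipalIdealRing.isMaximal_of_irreducible (Nat.prime_iff_prime_int.mp hℓ).irreducible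
  haveI : Q.LiesOver P := by
    refine ⟨hPmax.eq_of_le ?_ ?_⟩
    · exact (Ideal.comap_isPrime _ _).ne_top
    · rw [Ideal.span_le]
      intro x hx
      rw [Set.mem_singleton_iff] at hx
      subst hx
      show algebraMap ℤ Zbar (ℓ : ℤ) ∈ Q
      rw [hQmem]
      have hA' : (ℓ : Qbar) ∈ A.nonunits := hA
      simpa using hA'
  haveI : Fact ℓ.Prime := ⟨hℓ⟩
  haveI : CharP (Zbar ⧸ Q) ℓ := by
    rw [CharP.charP_iff_prime_eq_zero hℓ]
    have : ((ℓ : Zbar) : Zbar ⧸ Q) = 0 := by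
      rw [Ideal.Quotient.eq_zero_iff_mem, hQmem]
      have hA' : (ℓ : Qbar) ∈ A.nonunits := hA
      simpa using hA'
    simpa using this
  let F : (Zbar ⧸ Q) →ₐ[ℤ ⧸ P] (Zbar ⧸ Q) :=
    { frobenius (Zbar ⧸ Q) ℓ with
      commutes' := fun r => by
        obtain ⟨n, rfl⟩ := Ideal.Quotient.mk_surjective r
        have h1 : Ideal.Quotient.mk P n = ((n : ℤ) : ℤ ⧸ P) := by simp
        simp only [h1, map_intCast, RingHom.toMonoidHom_eq_coe, OneHom.toFun_eq_coe,
          MonoidHom.toOneHom_coe, MonoidHom.coe_coe] }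
  have hF : ∀ y, F y = y ^ ℓ := fun y => rfl
  have hbij : Function.Bijective F := by
    constructor
    · exact frobenius_inj (Zbar ⧸ Q) ℓ
    · intro y
      obtain ⟨b, rfl⟩ := Ideal.Quotient.mk_surjective y
      obtain ⟨c, hc⟩ := IsAlgClosed.exists_pow_nat_eq (b : Qbar) hℓ.pos
      have hcint : IsIntegral ℤ c := IsIntegral.of_pow hℓ.pos (hc ▸ b.2)
      refine ⟨Ideal.Quotient.mk Q ⟨c, hcint⟩, ?_⟩
      rw [hF, ← map_pow]
      congr 1
      exact Subtype.ext hc
  obtain ⟨⟨σ, hσQ⟩, hσ⟩ := Ideal.Quotient.stabilizerHom_surjective_of_profinite (G := GQ) P Q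
    (AlgEquiv.ofBijective F hbij)
  refine ⟨σ, fun b hb => ?_⟩
  have h1 := DFunLike.congr_fun hσ (Ideal.Quotient.mk Q ⟨b, hb⟩)
  rw [Ideal.Quotient.stabilizerHom_apply, AlgEquiv.ofBijective_apply, hF, ← map_pow,
    Ideal.Quotient.eq, hQmem] at h1
  exact h1

lemma pow_mem_nonunits_iff (A : ValuationSubring Qbar) {n : ℕ} (hn : n ≠ 0) {b : Qbar} :
    b ^ n ∈ A.nonunits ↔ b ∈ A.nonunits := by
  rw [ValuationSubring.mem_nonunits_iff, ValuationSubring.mem_nonunits_iff, map_pow]
  exact pow_lt_one_iff hn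

open scoped Pointwise in
/-- **Existence of Frobenius elements**: for every valuation subring `A` of `Qbar` lying over a
prime `ℓ`, there is `σ ∈ Gal(Qbar/Q)` which is a Frobenius element at `A`. -/
theorem exists_isFrobeniusAt (A : ValuationSubring Qbar) {ℓ : ℕ} (hℓ : ℓ.Prime)
    (hA : A.LiesOverPrime ℓ) : ∃ σ : GQ, A.IsFrobeniusAt σ ℓ := by
  obtain ⟨σ, hσ⟩ := exists_frob_on_integers A hℓ hA
  have hiff : ∀ b : Qbar, IsIntegral ℤ b → (σ b ∈ A.nonunits ↔ b ∈ A.nonunits) := by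
    intro b hb
    rw [← pow_mem_nonunits_iff A hℓ.ne_zero (b := b)]
    constructor
    · intro h
      have := A.nonunits.sub_mem h (hσ b hb)
      simpa using this
    · intro h
      have := A.nonunits.add_mem (hσ b hb) h
      simpa using this
  have hiff' : ∀ b : Qbar, IsIntegral ℤ b → (σ⁻¹ b ∈ A.nonunits ↔ b ∈ A.nonunits) := by
    intro b hb
    have h1 : IsIntegral ℤ (σ⁻¹ b) := hb.map (σ⁻¹ : GQ)
    have h2 := hiff _ h1
    have h3 : σ (σ⁻¹ b) = b := by
      change (σ * σ⁻¹) b = b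
      simp
    rw [h3] at h2
    exact h2.symm
  have hmem : σ ∈ A.decompositionSubgroup ℚ := by
    rw [MulAction.mem_stabilizer_iff]
    ext y
    rw [ValuationSubring.mem_pointwise_smul_iff_inv_smul_mem]
    constructor
    · intro h
      have := map_mem_of_forall A hℓ hA σ hiff h
      have h3 : σ (σ⁻¹ • y) = y := by
        change (σ * σ⁻¹) y = y
        simp
      rwa [h3] at this
    · intro h
      exact map_mem_of_forall A hℓ hA σ⁻¹ hiff' h
  refine ⟨σ, hmem, fun x => ?_⟩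
  obtain ⟨a, rfl⟩ := IsLocalRing.residue_surjective x
  rw [← IsLocalRing.ResidueField.residue_smul, ← map_pow, ← sub_eq_zero, ← map_sub,
    IsLocalRing.residue_eq_zero_iff, ← ValuationSubring.coe_mem_nonunits_iff]
  change σ (a : Qbar) - (a : Qbar) ^ ℓ ∈ A.nonunits
  obtain ⟨s, b, hs, hsx⟩ := exists_fraction A hℓ hA a.2
  have hσa : σ (a : Qbar) ∈ A := map_mem_of_forall A hℓ hA σ hiff a.2
  have h1 : A.valuation (s : Qbar) = 1 := valuation_eq_one A (mem_of_isIntegral A s.2) hs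
  have h2 : σ (s : Qbar) * σ (a : Qbar) = σ (b : Qbar) := by rw [← map_mul, hsx]
  have key : (σ (a : Qbar) - (a : Qbar) ^ ℓ) * (s : Qbar) ^ ℓ =
      (σ (b : Qbar) - (b : Qbar) ^ ℓ) - (σ (s : Qbar) - (s : Qbar) ^ ℓ) * σ (a : Qbar) := by
    rw [← h2, ← hsx]
    ring
  have h3 : (σ (a : Qbar) - (a : Qbar) ^ ℓ) * (s : Qbar) ^ ℓ ∈ A.nonunits := by
    rw [key]
    exact A.nonunits.sub_mem (hσ _ b.2) (mul_mem_nonunits A (hσ _ s.2) hσa)
  rw [ValuationSubring.mem_nonunits_iff] at h3 ⊢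
  rwa [map_mul, map_pow, h1, one_pow, mul_one] at h3

/-- There is a valuation subring of `Qbar` lying over any given prime. -/
theorem exists_liesOverPrime {ℓ : ℕ} (hℓ : ℓ.Prime) :
    ∃ A : ValuationSubring Qbar, A.LiesOverPrime ℓ := by
  let R : Subring Qbar := (integralClosure ℤ Qbar).toSubring
  have hxint : IsIntegral ℤ (ℓ : Qbar) := by
    have := isIntegral_algebraMap (R := ℤ) (A := Qbar) (x := (ℓ : ℤ))
    simpa using this
  let x : R := ⟨(ℓ : Qbar), hxint⟩
  have hI : Ideal.span {x} ≠ ⊤ := by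
    intro h
    rw [Ideal.span_singleton_eq_top] at h
    obtain ⟨u, hu⟩ := h
    have hinv : IsIntegral ℤ ((ℓ : Qbar)⁻¹) := by
      have h1 : ((u⁻¹ : Rˣ) : R).1 = (ℓ : Qbar)⁻¹ := by
        have h2 : ((u : R) * ((u⁻¹ : Rˣ) : R)).1 = 1 := by rw [Units.mul_inv]; rfl
        rw [hu] at h2
        exact eq_inv_of_mul_eq_one_right h2
      rw [← h1]
      exact ((u⁻¹ : Rˣ) : R).2
    have hmap : (algebraMap ℚ Qbar) ((ℓ : ℚ)⁻¹) = (ℓ : Qbar)⁻¹ := by simp
    rw [← hmap] at hinv
    have hintQ : IsIntegral ℤ ((ℓ : ℚ)⁻¹) :=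
      (isIntegral_algebraMap_iff (algebraMap ℚ Qbar).injective).mp hinv
    obtain ⟨m, hm⟩ := IsIntegrallyClosed.isIntegral_iff.mp hintQ
    rw [eq_intCast] at hm
    have hpQ : (ℓ : ℚ) ≠ 0 := by exact_mod_cast hℓ.ne_zero
    have hmul : ((ℓ * m : ℤ) : ℚ) = ((1 : ℤ) : ℚ) := by
      push_cast; rw [hm]; field_simp
    have hdvd : (ℓ : ℤ) ∣ 1 := ⟨m, (Int.cast_injective hmul).symm⟩
    have hple : (ℓ : ℤ) ≤ 1 := Int.le_of_dvd one_pos hdvd
    have := hℓ.two_le; omega
  obtain ⟨B, -, hB⟩ := Ideal.image_subset_nonunits_valuationSubring _ hI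
  exact ⟨B, hB ⟨x, Ideal.subset_span rfl, rfl⟩⟩

/-- For each prime there is a valuation subring over it together with a Frobenius element. -/
theorem exists_frobenius_pair {ℓ : ℕ} (hℓ : ℓ.Prime) :
    ∃ (A : ValuationSubring Qbar) (σ : GQ), A.LiesOverPrime ℓ ∧ A.IsFrobeniusAt σ ℓ := by
  obtain ⟨A, hA⟩ := exists_liesOverPrime hℓ
  obtain ⟨σ, hσ⟩ := exists_isFrobeniusAt A hℓ hA
  exact ⟨A, σ, hA, hσ⟩

end Fermat.Agent.Lib.Frobenius
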